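/-
T4E (S36 for every exponent `e ≥ 2`, towards S45; Glue/G owner helper3), **the Kummer-level
interface** between the geometry of T4E and the statement-level reduction.

Level `N = N'' * q ^ k * q * q` (`= (N'' * q ^ k * q) * q`, so that the level-`N' q` tools of T2/T4-G
with `N' = N'' * q ^ k * q`, `q ∣ N'`, apply literally), `q` prime, `q ∤ N''`; the exponent of `q` in
`N` is `e = k + 2`.

* `T4eWType`: the type of a function-level Atkin–Lehner involution `w_{q^e}`;
* `T4eWCompat wU`: the two compatibilities required of it (analytically it is composition with the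
  matrix `W_{q^e}`, the coset system `t4eSysW`; it commutes with the Galois action `tkrSig`);
* `T4eNewAt wU N'' q k h`, `T4eNew wU`, `T4eNewAux wU`: the statement **(NEW_e)**: there is a non-zero
  integer `c` such that every Kummer class `y ∈ tWsub ℚ̄ N m` (`m` prime to `q`) which is invariant
  under the inertia group at `q` modulo `m`-th powers and such that `U_q y` and `U_q (w y)` are
  `m`-th powers (i.e. `β_* y = 0` and `α_* y = 0`) satisfies `y ^ c ∈ (F^×)^m`.
  `T4eNew` asks this for `k ≥ 1` (i.e. `e ≥ 3`; `e = 2` is T4); `T4eNewAux` is the same with the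
  auxiliary hypothesis `4 ∣ N'' ∨ 9 ∣ N''` (no elliptic points).
-/
import Mathlib
import Fermat.Agent.Lib.T4E.G.ALpow

set_option autoImplicit false
set_option linter.unusedSectionVars false
set_option linter.unusedVariables false
set_option linter.style.haveILetI false

open scoped TensorProduct
open Matrix MatrixGroups CongruenceSubgroup Fermat.Agent.T1 Fermat.Agent.T2 ModularCurve
  Fermat.Agent.S24Lib ModularCurve.Period

namespace Fermat.Agent.T4

local notation "Kbar" => AlgebraicClosure ℚ
local notation "GQ" => (AlgebraicClosure ℚ ≃ₐ[ℚ] AlgebraicClosure ℚ)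

/-- the type of a function-level Atkin–Lehner involution `w_{q^e}` on the units of the function
fields of level `N'' q^k q q` -/
abbrev T4eWType : Type :=
  ∀ (N'' q k : ℕ) [NeZero N''] [Fact q.Prime] (_ : ¬ q ∣ N'') [NeZero (N'' * q ^ k * q * q)],
    (↥(modularFunctionFieldBar (N'' * q ^ k * q * q)))ˣ →*
      (↥(modularFunctionFieldBar (N'' * q ^ k * q * q)))ˣ

/-- the compatibilities required of `w_{q^e}`: it is composition with the matrix `W_{q^e}` on the
analytic side, and it commutes with the Galois action -/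
def T4eWCompat (wU : T4eWType) : Prop :=
  ∀ (N'' q k : ℕ) [NeZero N''] [Fact q.Prime] (h : ¬ q ∣ N'') [NeZero (N'' * q ^ k * q * q)],
    (∀ (DK : TdmDict Kbar (N'' * q ^ k * q * q)),
      DK.toMer = KMod.toMer Kbar (N'' * q ^ k * q * q) →
      ∀ y : (↥(modularFunctionFieldBar (N'' * q ^ k * q * q)))ˣ,
        DK.fn ((wU N'' q k h y : (↥(modularFunctionFieldBar (N'' * q ^ k * q * q)))ˣ) :
            ↥(modularFunctionFieldBar (N'' * q ^ k * q * q)))
          = (t4eSysW N'' q k h).prodFn
              (DK.fn (y : ↥(modularFunctionFieldBar (N'' * q ^ k * q * q))))) ∧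
    (∀ (σ : GQ) (y : (↥(modularFunctionFieldBar (N'' * q ^ k * q * q)))ˣ),
      wU N'' q k h (tkrSig (N'' * q ^ k * q * q) σ y)
        = tkrSig (N'' * q ^ k * q * q) σ (wU N'' q k h y))

/-- **(NEW_e)** at the level `N'' q^k q q`, function level, with the multiplier `c`: a Kummer class
of this level which is invariant under inertia at `q` and is killed by `U_q` (i.e. by `β_*`) and by
`U_q ∘ w_{q^e}` (i.e. by `α_*`) is killed by `c` -/
def T4eNewAtC (wU : T4eWType) (N'' q k : ℕ) [NeZero N''] [Fact q.Prime] (h : ¬ q ∣ N'')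
    [NeZero (N'' * q ^ k * q * q)] (c : ℕ) : Prop :=
  ∀ (A : ValuationSubring Kbar), A.LiesOverPrime q →
    ∀ m : ℕ, Nat.Coprime m q → m ≠ 0 →
      ∀ y : (↥(modularFunctionFieldBar (N'' * q ^ k * q * q)))ˣ,
        y ∈ tWsub Kbar (N'' * q ^ k * q * q) m →
        (∀ σ ∈ A.inertiaSubgroupIn ℚ,
          ∃ t : (↥(modularFunctionFieldBar (N'' * q ^ k * q * q)))ˣ,
            tkrSig (N'' * q ^ k * q * q) σ y = y * t ^ m) →
        (∃ t : (↥(modularFunctionFieldBar (N'' * q ^ k * q * q)))ˣ,
          tkrHeckeUUnits (N'' * q ^ k * q * q) q y = t ^ m) →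
        (∃ t : (↥(modularFunctionFieldBar (N'' * q ^ k * q * q)))ˣ,
          tkrHeckeUUnits (N'' * q ^ k * q * q) q (wU N'' q k h y) = t ^ m) →
        ∃ t : (↥(modularFunctionFieldBar (N'' * q ^ k * q * q)))ˣ, y ^ c = t ^ m

/-- **(NEW_e)** at the level `N'' q^k q q`: some non-zero multiplier `c` (depending on the level
only) works -/
def T4eNewAt (wU : T4eWType) (N'' q k : ℕ) [NeZero N''] [Fact q.Prime] (h : ¬ q ∣ N'')
    [NeZero (N'' * q ^ k * q * q)] : Prop :=
  ∃ c : ℕ, c ≠ 0 ∧ T4eNewAtC wU N'' q k h c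

/-- **(NEW_e)** at all levels with `e = k + 2 ≥ 3` -/
def T4eNew (wU : T4eWType) : Prop :=
  ∀ (N'' q k : ℕ) [NeZero N''] [Fact q.Prime] (h : ¬ q ∣ N'') [NeZero (N'' * q ^ k * q * q)],
    1 ≤ k → T4eNewAt wU N'' q k h

/-- **(NEW_e)** at the levels without elliptic points (`4 ∣ N''` or `9 ∣ N''`): the form proved by
the geometry; `T4eNewAux wU → T4eNew wU` is the level juggling -/
def T4eNewAux (wU : T4eWType) : Prop :=
  ∀ (N'' q k : ℕ) [NeZero N''] [Fact q.Prime] (h : ¬ q ∣ N'') [NeZero (N'' * q ^ k * q * q)],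
    1 ≤ k → (4 ∣ N'' ∨ 9 ∣ N'') → T4eNewAt wU N'' q k h

end Fermat.Agent.T4
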